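import Fermat.Agent.LT.T6.H830.InjSpec

/-!
# Row LT, tower T6, leaf T6.21.5 `H830.TorTRegC` (helper492)

OFF-MAIN.  `torTRegC492 : H830.TorTRegC` VERBATIM (Spec `LT/T6/H830/InjSpec.lean` of helper830,
byte-identical copy): for a test function `f` on `GL₂(ℝ)` the central average on the torus
`torT f t = ∫_ζ f(e^{ζ/2} a_t) dζ` is continuous in `t` and vanishes for large `t`.

Only `Continuous f` and `HasCompactSupport f` are used (`torT_reg492`).

Proof.  On the compact support `K` of `f` the continuous functions `log |det g|` and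
`g₀₀² / |det g|` are bounded, by `R` and `M₀`; at `g = bR ζ t 0 = e^{ζ/2} diag(e^{t/2}, e^{-t/2})`
they take the values `ζ` and `e^t`.  So `f (bR ζ t 0) = 0` unless `|ζ| ≤ R` and `e^t ≤ M₀`:
the integrand is dominated by `C · 1_{[-R, R]}` uniformly in `t` (continuity of the parametric
integral, `MeasureTheory.continuous_of_dominated`), and it vanishes identically for `t > M₀`
(`t + 1 ≤ e^t`).  `(ζ, t) ↦ bR ζ t 0` is continuous into `GL₂(ℝ)` (units topology: the inverse is
`bR (-ζ) (-t) 0`).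
-/

set_option autoImplicit false

open scoped Matrix
open MeasureTheory

noncomputable section

namespace Fermat.Agent.LT.T6.H492

open Fermat.Agent.LT.T6 Fermat.Agent.LT.T6.H830

/-! ## 1. The torus elements `bR ζ t 0` -/

theorem bR_val492 (ζ r x : ℝ) :
    ((bR ζ r x : GL (Fin 2) ℝ) : Matrix (Fin 2) (Fin 2) ℝ)
      = !![Real.exp ((ζ + r) / 2), Real.exp ((ζ + r) / 2) * x; 0, Real.exp ((ζ - r) / 2)] :=
  rfl

theorem bR_mul_neg492 (ζ t : ℝ) : bR ζ t 0 * bR (-ζ) (-t) 0 = 1 := by
  apply Units.ext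
  rw [Units.val_mul, bR_val492, bR_val492, Units.val_one]
  have e1 : Real.exp ((ζ + t) / 2) * Real.exp ((-ζ + -t) / 2) = 1 := by
    rw [← Real.exp_add]
    have : (ζ + t) / 2 + (-ζ + -t) / 2 = 0 := by ring
    rw [this, Real.exp_zero]
  have e2 : Real.exp ((ζ - t) / 2) * Real.exp ((-ζ + t) / 2) = 1 := by
    rw [← Real.exp_add]
    have : (ζ - t) / 2 + (-ζ + t) / 2 = 0 := by ring
    rw [this, Real.exp_zero]
  ext i j
  fin_cases i <;> fin_cases j <;> simp [Matrix.mul_apply, Fin.sum_univ_two, e1, e2]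

theorem bR_inv492 (ζ t : ℝ) : (bR ζ t 0)⁻¹ = bR (-ζ) (-t) 0 :=
  inv_eq_of_mul_eq_one_right (bR_mul_neg492 ζ t)

theorem continuous_bR_val492 :
    Continuous (fun p : ℝ × ℝ =>
      ((bR p.1 p.2 0 : GL (Fin 2) ℝ) : Matrix (Fin 2) (Fin 2) ℝ)) := by
  simp only [bR_val492]
  refine continuous_matrix fun i j => ?_
  fin_cases i <;> fin_cases j <;> simp <;> fun_prop

theorem continuous_bR492 : Continuous (fun p : ℝ × ℝ => bR p.1 p.2 0) := by
  rw [Units.continuous_iff]
  refine ⟨continuous_bR_val492, ?_⟩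
  have h : (fun p : ℝ × ℝ =>
      (((bR p.1 p.2 0)⁻¹ : GL (Fin 2) ℝ) : Matrix (Fin 2) (Fin 2) ℝ))
      = fun p : ℝ × ℝ => ((bR (-p.1) (-p.2) 0 : GL (Fin 2) ℝ) : Matrix (Fin 2) (Fin 2) ℝ) := by
    funext p
    rw [bR_inv492]
  have h2 : Continuous (fun p : ℝ × ℝ => ((-p.1, -p.2) : ℝ × ℝ)) := by fun_prop
  exact h ▸ continuous_bR_val492.comp h2

theorem det_bR492 (ζ t : ℝ) :
    ((bR ζ t 0 : GL (Fin 2) ℝ) : Matrix (Fin 2) (Fin 2) ℝ).det = Real.exp ζ := by
  rw [bR_val492, Matrix.det_fin_two_of]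
  simp only [mul_zero, sub_zero]
  rw [← Real.exp_add]
  congr 1
  ring

theorem entry_bR492 (ζ t : ℝ) :
    ((bR ζ t 0 : GL (Fin 2) ℝ) : Matrix (Fin 2) (Fin 2) ℝ) 0 0 = Real.exp ((ζ + t) / 2) := by
  rw [bR_val492]
  rfl

/-! ## 2. Two continuous functions on `GL₂(ℝ)` -/

theorem continuous_det492 :
    Continuous (fun g : GL (Fin 2) ℝ => (g : Matrix (Fin 2) (Fin 2) ℝ).det) :=
  Continuous.matrix_det Units.continuous_val

theorem det_ne_zero492 (g : GL (Fin 2) ℝ) : (g : Matrix (Fin 2) (Fin 2) ℝ).det ≠ 0 := by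
  have h := Matrix.GeneralLinearGroup.det_ne_zero g
  exact h

theorem continuous_logdet492 :
    Continuous (fun g : GL (Fin 2) ℝ => Real.log |(g : Matrix (Fin 2) (Fin 2) ℝ).det|) :=
  Continuous.log (continuous_abs.comp continuous_det492)
    (fun g => abs_ne_zero.mpr (det_ne_zero492 g))

theorem continuous_ratio492 :
    Continuous (fun g : GL (Fin 2) ℝ =>
      ((g : Matrix (Fin 2) (Fin 2) ℝ) 0 0) ^ 2 / |(g : Matrix (Fin 2) (Fin 2) ℝ).det|) :=
  Continuous.div ((Units.continuous_val.matrix_elem 0 0).pow 2)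
    (continuous_abs.comp continuous_det492) (fun g => abs_ne_zero.mpr (det_ne_zero492 g))

/-! ## 3. The leaf -/

theorem torT_reg492 {f : GL (Fin 2) ℝ → ℂ} (hc : Continuous f) (hs : HasCompactSupport f) :
    Continuous (torT f) ∧ ∃ M : ℝ, ∀ t : ℝ, M < t → torT f t = 0 := by
  have hK : IsCompact (tsupport f) := hs
  obtain ⟨R, hR⟩ := hK.exists_bound_of_continuousOn continuous_logdet492.continuousOn
  obtain ⟨M₀, hM₀⟩ := hK.exists_bound_of_continuousOn continuous_ratio492.continuousOn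
  obtain ⟨C, hC⟩ := hc.bounded_above_of_compact_support hs
  have hC0 : 0 ≤ C := (norm_nonneg _).trans (hC 1)
  have hzero : ∀ ζ t : ℝ, f (bR ζ t 0) ≠ 0 → |ζ| ≤ R ∧ Real.exp t ≤ M₀ := by
    intro ζ t hne
    have hmem : bR ζ t 0 ∈ tsupport f := subset_tsupport f hne
    constructor
    · have h := hR _ hmem
      rw [det_bR492, abs_of_pos (Real.exp_pos ζ), Real.log_exp, Real.norm_eq_abs] at h
      exact h
    · have h := hM₀ _ hmem
      rw [det_bR492, entry_bR492, abs_of_pos (Real.exp_pos ζ), Real.norm_eq_abs] at h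
      have e : Real.exp ((ζ + t) / 2) ^ 2 / Real.exp ζ = Real.exp t := by
        rw [← Real.exp_nat_mul, ← Real.exp_sub]
        congr 1
        push_cast
        ring
      rw [e, abs_of_pos (Real.exp_pos t)] at h
      exact h
  refine ⟨?_, M₀, ?_⟩
  · unfold torT
    refine continuous_of_dominated (bound := Set.indicator (Set.Icc (-R) R) (fun _ => C))
      ?_ ?_ ?_ ?_
    · intro t
      have h2 : Continuous (fun ζ : ℝ => ((ζ, t) : ℝ × ℝ)) := by fun_prop
      exact (hc.comp (continuous_bR492.comp h2)).aestronglyMeasurable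
    · intro t
      refine Filter.Eventually.of_forall fun ζ => ?_
      by_cases h0 : f (bR ζ t 0) = 0
      · rw [h0, norm_zero]
        exact Set.indicator_nonneg (fun _ _ => hC0) _
      · rw [Set.indicator_of_mem (Set.mem_Icc.mpr (abs_le.mp (hzero ζ t h0).1))]
        exact hC _
    · rw [integrable_indicator_iff measurableSet_Icc]
      exact integrableOn_const (by simp)
    · refine Filter.Eventually.of_forall fun ζ => ?_
      have h2 : Continuous (fun t : ℝ => ((ζ, t) : ℝ × ℝ)) := by fun_prop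
      exact hc.comp (continuous_bR492.comp h2)
  · intro t ht
    unfold torT
    have h0 : ∀ ζ : ℝ, f (bR ζ t 0) = 0 := by
      intro ζ
      by_contra hne
      have h1 := (hzero ζ t hne).2
      have h2 := Real.add_one_le_exp t
      linarith
    simp [h0]

/-- **Leaf T6.21.5** `H830.TorTRegC`, VERBATIM. -/
theorem torTRegC492 : TorTRegC :=
  fun _ _ _ hf => torT_reg492 hf.cont hf.supp

end Fermat.Agent.LT.T6.H492

end
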